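import Fermat.Agent.LLv.Main

/-!
# Inertia on the new classes of `X₀(N p)` at `p`

Let `c` be a `p`-torsion class on `X₀(N p)` which is an eigenvector of the Atkin–Lehner involution
`w` and such that `w c` is killed by the push-forward to `X₀(N)`.  For `s`, `s'` in the inertia
group at `p`, the class `s c - c` satisfies `s' (s c - c) = χ(s') (s c - c)`.
-/

set_option autoImplicit false
set_option linter.unusedSectionVars false
set_option maxHeartbeats 1000000

noncomputable section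

open AlgebraicCurve Module IntermediateField ModularCurve HahnSeries

attribute [-instance] Fermat.Agent.X0Places.ffField Fermat.Agent.X0Places.ffAlgebra

namespace Fermat.Agent.LS3

open Fermat.Agent.BadRed Fermat.Agent.LLp Fermat.Agent.LLu Fermat.Agent.LLc Fermat.Agent.Degen
open Fermat.Agent.FunField Fermat.Agent.FunField.PlaceLemmas Fermat.Agent.Deuring
open Fermat.Agent.Igusa Fermat.Agent.AtkinLehner Fermat.Agent.HeckeRed Fermat.Agent.LLv
open Fermat.Agent.TorsCmp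
open Fermat.Agent.ZLoc2 (IsCoef IsAL)

local notation "Qb" => AlgebraicClosure ℚ
local notation "GQ" => (AlgebraicClosure ℚ ≃ₐ[ℚ] AlgebraicClosure ℚ)

/-- the hypothesis `KHyp` for the full inertia group -/
theorem kHyp_inertia {A : ValuationSubring Qb} {p : ℕ} (hp : p.Prime) (hp2 : p ≠ 2)
    (hA : A.LiesOverPrime p) (v : A.ValueGroup) :
    KHyp A p (A.inertiaSubgroupIn ℚ) v 1 where
  hp := hp
  hp2 := hp2
  hA := hA
  hJI := le_refl _
  hJ := by rw [Subgroup.relIndex_self]; exact one_dvd _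
  hβ := map_one _
  hβJ := fun s _ => map_one s
  h1 := fun s _ => by rw [map_one, div_one, sub_self, map_zero]; exact zero_le
  h2 := fun s hs h => absurd hs h

theorem isDiv_zpow {L F : Type*} [Field L] [Field F] [Algebra L F] {D : Divisor L F} {f : F}
    (hf : IsDiv D f) (m : ℤ) : IsDiv (m • D) (f ^ m) := by
  obtain ⟨m, rfl | rfl⟩ := m.eq_nat_or_neg
  · rw [zpow_natCast, natCast_zsmul]; exact hf.pow m
  · rw [zpow_neg, zpow_natCast, neg_smul, natCast_zsmul]; exact (hf.pow m).inv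

section Abs

variable {L k : Type*} [Field L] [Field k]
variable {F F₁ : Type*} [Field F] [Field F₁] [Algebra L F] [Algebra k F₁]
  {T : TwoVal L k F F₁} {n : ℕ} {p : FrobPencil T.toRData} {𝒰 : UData T n}
  {Λ : LamData T.toRData n} {R : RatData p 𝒰 Λ} (ID : InData R)

include ID in
/-- the residue of `s f / f` is `1` -/
theorem powRes_smul_div {s : SemilinearAut L F} (hs : s ∈ R.I) {f : F} (hf : f ≠ 0) :
    PowRes T.V₁ n (s • f * f⁻¹) := by
  obtain ⟨γ, hγ, hσ⟩ := ID.hγ _ hs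
  obtain ⟨a, ha, hr⟩ := ResVal.exists_hasRes (V := T.V₁) hf
  have h3 : T.V₁.HasRes (s • f) a := by
    have := γ.hasRes₁ hr
    rw [hγ, hσ] at this
    exact this
  refine ⟨1, one_ne_zero, ?_⟩
  have := h3.mul (hr.inv ha)
  rwa [mul_inv_cancel₀ ha, ← one_pow n] at this

variable [IsFF L F] [IsFF k F₁] [HasPrincipalDivisors L F] [IsAlgClosed L]
    [HasPrincipalDivisors k F₁] [IsAlgClosed k]

include ID in
/-- abstract form -/
theorem lin_smul_sub (harch : T.Arch) (hn : n.Prime) [CharP k n] {G g₁ : ℤ}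
    (H : FrobPencil.Hyp p G g₁) {D : Divisor L F} {f : F} (hf : IsDiv (n • D) f)
    {s s' : SemilinearAut L F} (hs : s ∈ R.I) (hs' : s' ∈ R.I)
    (hU : Sg (𝒰.dU (s • D - D)) (s • D - D))
    (hw : Sg (SemilinearAut.ofAlgAut 𝒰.w • (s • D - D)) (s • D - D)) :
    Lin (s' • (s • D - D)) (ID.χ s' • (s • D - D)) := by
  have h1 : IsDiv (n • (s • D - D)) (s • f * f⁻¹) := by
    have h2 := smul_isDiv s hf
    have e : s • (n • D) = n • (s • D) :=
      map_nsmul (DistribSMul.toAddMonoidHom (Divisor L F) s) n D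
    rw [e] at h2
    have h3 := h2.mul hf.inv
    have e2 : n • (s • D) + -(n • D) = n • (s • D - D) := by rw [smul_sub, sub_eq_add_neg]
    rwa [e2] at h3
  obtain ⟨D₀, hD₀, hlin⟩ := fine_of_powRes (Λ := Λ) harch hn h1 (powRes_smul_div ID hs hf.1) hU hw
  exact lin_of_fine ID hn H hD₀ hlin hs'

end Abs

section Conc

variable {κ : Type*} [Field κ] [IsAlgClosed κ]
  (A : ValuationSubring Qb) (π : A →+* κ) [IsLocalHom π] (hπ : Function.Surjective π)
  (harch : ArchA π)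
  (N p : ℕ) [hp : Fact p.Prime] [hN : NeZero N] [CharP κ p] (hpN : ¬ p ∣ N)
  (hg : genusFF κ (modularFunctionFieldFullC κ N) = genusFF Qb (modularFunctionFieldFullC Qb N))
  (d : CP.DecAut A π) (hd : CP.IsFrob d p)

include hπ harch hpN hg hd in
theorem inertia_D (hp2 : p ≠ 2) {ζ : A} (hζ : IsPrimitiveRoot (ζ : Qb) p)
    (hA : A.LiesOverPrime p)
    {D : Divisor Qb (modularFunctionFieldFullC Qb (N * p))}
    {f : modularFunctionFieldFullC Qb (N * p)} (hf : IsDiv (p • D) f)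
    {s s' : GQ} (hs : s ∈ A.inertiaSubgroupIn ℚ) (hs' : s' ∈ A.inertiaSubgroupIn ℚ)
    {k : ℕ} (hk : s' (ζ : Qb) = (ζ : Qb) ^ k)
    {g g' : SemilinearAut Qb (modularFunctionFieldFullC Qb (N * p))}
    (hgs : IsCoef g (s : Qb →+* Qb)) (hgs' : IsCoef g' (s' : Qb →+* Qb))
    (hw : Sg (SemilinearAut.ofAlgAut (ww Qb N p hpN) • (g • D - D)) (g • D - D))
    (hα : Lin (Degen.push (alpha1 Qb N p) (SemilinearAut.ofAlgAut (ww Qb N p hpN) •
      (g • D - D))) 0) :
    Lin (g' • (g • D - D)) (k • (g • D - D)) := by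
  have i0 : NeZero (N * p) := ⟨mul_ne_zero (NeZero.ne N) hp.out.ne_zero⟩
  have i1 : NeZero p := ⟨hp.out.ne_zero⟩
  have H := CP.pen_hyp A π hπ harch N p hpN hg d hd
  let Λ : LamData (twoVal A π hπ harch N p hpN).toRData p :=
    lamData (𝔇 := (twoVal A π hπ harch N p hpN).toRData) hp.out inferInstance hζ
  have K' : KHyp A p (A.inertiaSubgroupIn ℚ) (A.valuation ((Λ.lam : A) : Qb)) 1 :=
    kHyp_inertia hp.out hp2 hA _
  obtain ⟨s₀, hs₀, hs₀ζ⟩ := exists_inertia_ne hp.out hp2 hA hζ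
  let R := ratDataX A π hπ harch N p hpN hg d hd (Λ := Λ) K'
  let ID : InData R := inDataX A π hπ harch N p hpN hg d hd hζ K' hs₀ hs₀ζ
  have hgI : g ∈ R.I := ⟨s.toRingEquiv, ⟨s, hs, rfl⟩, hgs⟩
  have hgI' : g' ∈ R.I := ⟨s'.toRingEquiv, ⟨s', hs', rfl⟩, hgs'⟩
  have h1 := lin_smul_sub ID harch hp.out H hf hgI hgI' (sg_dUU N p hpN hα hw) hw
  -- the exponents agree
  have h2 := cycExp_spec hζ g'
  rw [baseAut_of_coef (σ := s'.toRingEquiv) hgs'] at h2
  have h3 : (ζ : Qb) ^ cycExp (ζ : Qb) g' = (ζ : Qb) ^ k := h2.symm.trans hk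
  have hζ0 : (ζ : Qb) ≠ 0 := hζ.ne_zero hp.out.ne_zero
  have h4 : (p : ℤ) ∣ ((cycExp (ζ : Qb) g' : ℕ) : ℤ) - (k : ℤ) := by
    rw [← hζ.zpow_eq_one_iff_dvd, zpow_sub₀ hζ0, zpow_natCast, zpow_natCast, h3,
      div_self (pow_ne_zero _ hζ0)]
  refine h1.trans ?_
  -- `χ D' = k D'` as classes
  have h5 : IsDiv (p • (g • D - D)) (g • f * f⁻¹) := by
    have h6 := smul_isDiv g hf
    have e : g • (p • D) = p • (g • D) :=
      map_nsmul (DistribSMul.toAddMonoidHom (Divisor Qb _) g) p D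
    rw [e] at h6
    have h7 := h6.mul hf.inv
    have e2 : p • (g • D) + -(p • D) = p • (g • D - D) := by rw [smul_sub, sub_eq_add_neg]
    rwa [e2] at h7
  obtain ⟨m, hm⟩ := h4
  have h8 : ((cycExp (ζ : Qb) g' : ℕ) : ℤ) - (k : ℤ) = m * p := by rw [hm]; ring
  refine ⟨(g • f * f⁻¹) ^ m, ?_⟩
  have h9 := isDiv_zpow h5 m
  have e3 : cycExp (ζ : Qb) g' • (g • D - D) - k • (g • D - D) = m • (p • (g • D - D)) := by
    rw [← natCast_zsmul, ← natCast_zsmul _ k, ← sub_smul, h8, mul_smul, natCast_zsmul]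
  show IsDiv (cycExp (ζ : Qb) g' • (g • D - D) - k • (g • D - D)) _
  rw [e3]
  exact h9

include hπ harch hpN hg hd in
theorem inertia_E (hp2 : p ≠ 2) {ζ : A} (hζ : IsPrimitiveRoot (ζ : Qb) p)
    (hA : A.LiesOverPrime p)
    {E₀ E : IntermediateField Qb (LaurentSeries Qb)} [IsFF Qb E₀] [IsFF Qb E]
    (hE₀ : E₀ = modularFunctionFieldFullC Qb N) (hE : E = modularFunctionFieldFullC Qb (N * p))
    (α : E₀ →ₐ[Qb] E) (hα : ∀ x, (α x : LaurentSeries Qb) = x) (w : E ≃ₐ[Qb] E) (hw : IsAL N p w)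
    {s s' : GQ} (hs : s ∈ A.inertiaSubgroupIn ℚ) (hs' : s' ∈ A.inertiaSubgroupIn ℚ)
    {k : ℕ} (hk : s' (ζ : Qb) = (ζ : Qb) ^ k) {g g' : SemilinearAut Qb E}
    (hgs : IsCoef g (s : Qb →+* Qb)) (hgs' : IsCoef g' (s' : Qb →+* Qb))
    {c : Pic0 Qb E} (hpc : p • c = 0) {ε : ℤ} (hε : ε = 1 ∨ ε = -1)
    (hwc : SemilinearAut.ofAlgAut w • (g • c - c) = ε • (g • c - c))
    (hαc : pushPic α (SemilinearAut.ofAlgAut w • (g • c - c)) = 0) :
    g' • (g • c - c) = k • (g • c - c) := by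
  subst hE₀ hE
  have i0 : NeZero (N * p) := ⟨mul_ne_zero (NeZero.ne N) hp.out.ne_zero⟩
  have h1 : α = alpha1 Qb N p := AlgHom.ext fun x => Subtype.ext (by rw [hα, coe_alpha1])
  have h2 := ZLoc2.ww_eq N p hpN hw
  subst h1 h2
  obtain ⟨D, rfl⟩ := Pic0.mk_surjective c
  obtain ⟨f, hf⟩ := exists_isDiv_of_nsmul hpc
  set B : Divisor.degZero (K := Qb) (F := modularFunctionFieldFullC Qb (N * p)) :=
    SemilinearAut.degZeroSMulHom g D - D with hB
  have e1 : g • Pic0.mk D - Pic0.mk D = Pic0.mk B := rfl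
  have e2 : (B : Divisor Qb (modularFunctionFieldFullC Qb (N * p))) =
      g • (D : Divisor Qb (modularFunctionFieldFullC Qb (N * p))) - D := rfl
  rw [e1] at hwc hαc ⊢
  have h3 := sg_of_smul hε hwc
  have h4 : Lin (Degen.push (alpha1 Qb N p) (SemilinearAut.ofAlgAut (ww Qb N p hpN) •
        (B : Divisor Qb (modularFunctionFieldFullC Qb (N * p))))) 0 := by
    have h5 : SemilinearAut.ofAlgAut (ww Qb N p hpN) • Pic0.mk B =
      Pic0.mk (SemilinearAut.degZeroSMulHom (SemilinearAut.ofAlgAut (ww Qb N p hpN)) B) := rfl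
    rw [h5, pushPic_mk, LLv.mk_eq_zero_iff] at hαc
    obtain ⟨g, hg'⟩ := hαc
    exact ⟨g, by rw [sub_zero]; exact hg'⟩
  have h6 := inertia_D A π hπ harch N p hpN hg d hd hp2 hζ hA hf hs hs' hk hgs hgs'
    (by rw [← e2]; exact h3) (by rw [← e2]; exact h4)
  rw [← e2] at h6
  have h7 : k • Pic0.mk B = Pic0.mk (k • B) := rfl
  rw [h7, lin_smul_iff]
  exact h6

end Conc

/-- **Inertia on the new classes.** -/
theorem inertia_J {A : ValuationSubring Qb} {N p : ℕ} [hp : Fact p.Prime] [hN : NeZero N]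
    [NeZero (N * p)] (hpN : ¬ p ∣ N) (hp2 : p ≠ 2) (hA : A.LiesOverPrime p) {ζ : Qb}
    (hζ : IsPrimitiveRoot ζ p) (hex : ZAL.ExDiv p (N * p)) {c : JZero (N * p)} (hpc : p • c = 0)
    {ε : ℤ} (hε : ε = 1 ∨ ε = -1) (hwc : ZAL.wS iotaQbar hex • c = ε • c)
    (hαc : pushPic (heckeAlphaBar Qb N p) (ZAL.wS iotaQbar hex • c) = 0)
    {s s' : GQ} (hs : s ∈ A.inertiaSubgroupIn ℚ) (hs' : s' ∈ A.inertiaSubgroupIn ℚ) {k : ℕ}
    (hk : s' ζ = ζ ^ k) : s' • (s • c - c) = k • (s • c - c) := by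
  have i1 : NeZero p := ⟨hp.out.ne_zero⟩
  have hζA : ζ ∈ A := BadRed.mem_of_pow_eq_one hp.out.ne_zero hζ.pow_eq_one
  have i2 : IsAlgClosed (IsLocalRing.ResidueField A) := isAlgClosed_residueField A
  have i3 : CharP (IsLocalRing.ResidueField A) p := charP_residueField hp.out hA
  obtain ⟨Φ, hΦ⟩ := Frob.exists_isFrobeniusAt hp.out hA
  have hN0 : (N : IsLocalRing.ResidueField A) ≠ 0 := by
    rw [Ne, CharP.cast_eq_zero_iff _ p]
    exact hpN
  have hgal : ∀ σ : GQ, IsCoef (arithmeticGalois (modularFunctionFieldFull (N * p)) σ)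
    (σ : Qb →+* Qb) := fun σ x => coe_arithmeticGalois_smul _ σ x
  have hw1 : ZAL.wS iotaQbar hex • (s • c - c : JZero (N * p)) = ε • (s • c - c : JZero (N * p)) := by
    rw [smul_sub, ZAL.gal_wS_pic, hwc, gal_smul_zsmul, zsmul_sub]
  have hw2 : pushPic (heckeAlphaBar Qb N p) (ZAL.wS iotaQbar hex • (s • c - c : JZero (N * p))) =
      0 := by
    rw [smul_sub, ZAL.gal_wS_pic, map_sub]
    have h1 : pushPic (heckeAlphaBar Qb N p) (s • (ZAL.wS iotaQbar hex • c : JZero (N * p)) :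
        JZero (N * p)) = (s • pushPic (heckeAlphaBar Qb N p) (ZAL.wS iotaQbar hex • c) : JZero N) :=
      ZAL.push_gal (heckeAlphaBar Qb N p) (fun x => coe_heckeAlphaBar N p x) s _
    have h2 : (s • (0 : JZero N) : JZero N) = 0 := gal_zero s
    exact (congrArg₂ (· - ·) (h1.trans ((congrArg (fun z : JZero N => (s • z : JZero N)) hαc).trans
      h2)) hαc).trans (sub_zero _)
  exact inertia_E A (IsLocalRing.residue A) IsLocalRing.residue_surjective (archA hp.out hA)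
    N p hpN (Cusps.genusFF_residue A N hN0) (ZLoc2.decAut hΦ.mem_decompositionSubgroup)
    (fun a => hΦ.smul_residue_eq a) hp2 (ζ := ⟨ζ, hζA⟩) hζ hA
    (HeckeRed.laurentBaseChange_full Qb N) (HeckeRed.laurentBaseChange_full Qb (N * p))
    (heckeAlphaBar Qb N p) (coe_heckeAlphaBar N p) (ZAL.wF iotaQbar hex)
    (ZLoc2.isAL_wF iotaQbar N p hpN hex) hs hs' hk (hgal s) (hgal s') hpc hε hw1 hw2

end Fermat.Agent.LS3
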